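/-
GATE-R (S17) / heights, node GR-H-GEN (helper41): **the generic `e`-point field**.

For an algebraically closed field `k` and a field extension `F / k` we build, by induction on
`e`, a field `KK k F e ⊇ k` together with `e` embeddings `gen i : F →ₐ[k] KK k F e`
("the function field of the `e`-fold product of the curve"; `K_{e+1} := Frac (K_e ⊗[k] F)`, a domain
by `TensorDomain.isDomain_tensorProduct_of_isAlgClosed`), and prove ONE universal property
(`exists_specialisation`): for ANY subalgebras `R i ⊆ F` with `k`-points `φ i : R i →ₐ[k] k` there are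
a subalgebra `B ⊆ KK` containing every `gen i (R i)` and a `k`-point `Φ : B →ₐ[k] k` with
`Φ (gen i f) = φ i f`.  Consequences:

* `gen_eq_gen_iff` (G-b): `gen i f = gen j f → i = j ∨ f ∈ range (algebraMap k F)`;
* `aeval_gen_eq_zero` (G-d): polynomial identities between the `gen i (f j)` specialise at any family
  of valuation rings `P i ⊇ k` of `F` at which the `f j` have values in `k`;
* `comap_gen_ne_top` (G-c, abstract half): a `k`-rational valuation ring of `KK` has a nontrivial
  centre on every factor.
Mathlib-only apart from `TensorDomain`.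
-/
import Mathlib
import Fermat.Agent.GR.H.TensorDomain

set_option autoImplicit false

open scoped TensorProduct

noncomputable section

namespace Fermat.Agent.GR.H.Gen

universe u

/-! ### `k`-rational values at a valuation ring -/

section RatSub

variable {k L : Type*} [Field k] [Field L] [Algebra k L] (O : ValuationSubring L)

/-- "`a(O) = c`": `a - c` lies in the maximal ideal of `O`. -/
def HasValue (a : L) (c : k) : Prop := a - algebraMap k L c ∈ O.nonunits

theorem hasValue_iff_valuation {a : L} {c : k} :
    HasValue O a c ↔ O.valuation (a - algebraMap k L c) < 1 :=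
  ValuationSubring.mem_nonunits_iff O

variable {O}

theorem mul_mem_nonunits {x y : L} (hx : x ∈ O.nonunits) (hy : y ∈ O) : x * y ∈ O.nonunits := by
  rw [ValuationSubring.mem_nonunits_iff] at hx ⊢
  rw [map_mul]
  have h1 : O.valuation y ≤ 1 := (O.valuation_le_one_iff y).2 hy
  calc O.valuation x * O.valuation y ≤ O.valuation x * 1 := by gcongr
    _ = O.valuation x := mul_one _
    _ < 1 := hx

theorem hasValue_algebraMap (c : k) : HasValue O (algebraMap k L c) c := by
  unfold HasValue
  rw [sub_self]
  exact O.nonunits.zero_mem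

theorem HasValue.mem (hO : ∀ c : k, algebraMap k L c ∈ O) {a : L} {c : k} (h : HasValue O a c) :
    a ∈ O := by
  have h1 : a - algebraMap k L c ∈ O := O.nonunits_subset h
  have := O.add_mem _ _ h1 (hO c)
  simpa using this

theorem HasValue.add {a b : L} {c d : k} (ha : HasValue O a c) (hb : HasValue O b d) :
    HasValue O (a + b) (c + d) := by
  unfold HasValue at *
  have := O.nonunits.add_mem ha hb
  rw [map_add]
  convert this using 1
  ring

theorem HasValue.mul (hO : ∀ c : k, algebraMap k L c ∈ O) {a b : L} {c d : k}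
    (ha : HasValue O a c) (hb : HasValue O b d) : HasValue O (a * b) (c * d) := by
  have hbO : b ∈ O := hb.mem hO
  unfold HasValue at *
  have h1 := mul_mem_nonunits ha hbO
  have h2 := mul_mem_nonunits hb (hO c)
  have := O.nonunits.add_mem h1 h2
  rw [map_mul]
  convert this using 1
  ring

theorem HasValue.unique (hO : ∀ c : k, algebraMap k L c ∈ O) {a : L} {c d : k}
    (hc : HasValue O a c) (hd : HasValue O a d) : c = d := by
  by_contra hne
  unfold HasValue at *
  have h1 : algebraMap k L (c - d) ∈ O.nonunits := by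
    have := O.nonunits.sub_mem hd hc
    rw [map_sub]
    convert this using 1
    ring
  rw [ValuationSubring.mem_nonunits_iff_or] at h1
  rcases h1 with h1 | h1
  · exact hne (sub_eq_zero.1 ((map_eq_zero (algebraMap k L)).1 h1))
  · apply h1
    rw [← map_inv₀]
    exact hO _

variable (O)

/-- the subalgebra `k + 𝔪_O` of elements with a `k`-rational value at `O`. -/
def ratSub (hO : ∀ c : k, algebraMap k L c ∈ O) : Subalgebra k L where
  carrier := {a | ∃ c : k, HasValue O a c}
  mul_mem' := by
    rintro a b ⟨c, hc⟩ ⟨d, hd⟩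
    exact ⟨c * d, hc.mul hO hd⟩
  add_mem' := by
    rintro a b ⟨c, hc⟩ ⟨d, hd⟩
    exact ⟨c + d, hc.add hd⟩
  algebraMap_mem' := fun c => ⟨c, hasValue_algebraMap c⟩

theorem mem_ratSub (hO : ∀ c : k, algebraMap k L c ∈ O) {a : L} :
    a ∈ ratSub O hO ↔ ∃ c : k, HasValue O a c := Iff.rfl

/-- the value map `k + 𝔪_O → k`. -/
def ratVal (hO : ∀ c : k, algebraMap k L c ∈ O) : ratSub O hO →ₐ[k] k where
  toFun a := Classical.choose a.2
  map_one' := HasValue.unique hO (Classical.choose_spec (1 : ratSub O hO).2)
    (by simpa using hasValue_algebraMap (O := O) (1 : k))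
  map_zero' := HasValue.unique hO (Classical.choose_spec (0 : ratSub O hO).2)
    (by simpa using hasValue_algebraMap (O := O) (0 : k))
  map_mul' a b := HasValue.unique hO (Classical.choose_spec (a * b).2)
    ((Classical.choose_spec a.2).mul hO (Classical.choose_spec b.2))
  map_add' a b := HasValue.unique hO (Classical.choose_spec (a + b).2)
    ((Classical.choose_spec a.2).add (Classical.choose_spec b.2))
  commutes' c := HasValue.unique hO (Classical.choose_spec (algebraMap k (ratSub O hO) c).2)
    (hasValue_algebraMap c)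

theorem hasValue_ratVal (hO : ∀ c : k, algebraMap k L c ∈ O) (a : ratSub O hO) :
    HasValue O (a : L) (ratVal O hO a) := Classical.choose_spec a.2

theorem ratVal_eq (hO : ∀ c : k, algebraMap k L c ∈ O) {a : L} {c : k} (h : HasValue O a c) :
    ratVal O hO ⟨a, c, h⟩ = c :=
  HasValue.unique hO (hasValue_ratVal O hO ⟨a, c, h⟩) h

end RatSub

/-! ### Centres of a `k`-rational valuation ring -/

section Comap

variable {k F L : Type*} [Field k] [Field F] [Field L] [Algebra k F] [Algebra k L]

theorem mem_nonunits_comap (O : ValuationSubring L) (g : F →+* L) {x : F} :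
    x ∈ (O.comap g).nonunits ↔ g x ∈ O.nonunits := by
  rw [ValuationSubring.mem_nonunits_iff_or, ValuationSubring.mem_nonunits_iff_or,
    ValuationSubring.mem_comap, map_inv₀, map_eq_zero]

theorem hasValue_comap (O : ValuationSubring L) (g : F →ₐ[k] L) {x : F} {c : k} :
    HasValue (O.comap (g : F →+* L)) x c ↔ HasValue O (g x) c := by
  unfold HasValue
  rw [mem_nonunits_comap]
  simp

theorem algebraMap_mem_comap (O : ValuationSubring L) (g : F →ₐ[k] L)
    (hO : ∀ c : k, algebraMap k L c ∈ O) (c : k) :
    algebraMap k F c ∈ O.comap (g : F →+* L) := by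
  rw [ValuationSubring.mem_comap]
  simpa using hO c

/-- **(G-c), abstract half**: a valuation ring of `L` all of whose elements have a `k`-rational
value has a NONTRIVIAL centre on every subfield `g : F → L` with `F ≠ k`. -/
theorem comap_ne_top_of_rational (O : ValuationSubring L) (g : F →ₐ[k] L)
    (hrat : ∀ a ∈ O, ∃ c : k, HasValue O a c)
    (hF : ¬ Function.Surjective (algebraMap k F)) : O.comap (g : F →+* L) ≠ ⊤ := by
  intro htop
  obtain ⟨f, hf⟩ := not_forall.1 hF
  have hall : ∀ x : F, g x ∈ O := fun x => by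
    have : x ∈ O.comap (g : F →+* L) := by rw [htop]; exact ValuationSubring.mem_top _
    exact this
  obtain ⟨c, hc⟩ := hrat _ (hall f)
  have hne : f - algebraMap k F c ≠ 0 := fun h => hf ⟨c, (sub_eq_zero.1 h).symm⟩
  have hg : g f - algebraMap k L c = g (f - algebraMap k F c) := by simp
  unfold HasValue at hc
  rw [hg, ValuationSubring.mem_nonunits_iff_or] at hc
  rcases hc with hc | hc
  · exact hne ((map_eq_zero g).1 hc)
  · apply hc
    rw [← map_inv₀]
    exact hall _

end Comap

/-! ### The package -/

/-- A field `KK ⊇ k` with `e` embeddings of `F` with simultaneous specialisations. -/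
structure GenPack (k F : Type u) [Field k] [Field F] [Algebra k F] (e : ℕ) where
  /-- the field -/
  KK : Type u
  /-- its field structure -/
  instField : Field KK
  /-- its `k`-algebra structure -/
  instAlg : Algebra k KK
  /-- the `e` embeddings -/
  gen : Fin e → F →ₐ[k] KK
  /-- simultaneous specialisation -/
  spec : ∀ (R : Fin e → Subalgebra k F) (φ : ∀ i, R i →ₐ[k] k),
    ∃ (B : Subalgebra k KK) (Φ : B →ₐ[k] k), ∀ (i : Fin e) (f : R i),
      ∃ h : gen i (f : F) ∈ B, Φ ⟨gen i (f : F), h⟩ = φ i f

attribute [instance] GenPack.instField GenPack.instAlg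

variable (k F : Type u) [Field k] [Field F] [Algebra k F]

/-- the base of the induction: no point, `KK = k`. -/
def GenPack.zero : GenPack k F 0 where
  KK := k
  instField := inferInstance
  instAlg := inferInstance
  gen := fun i => i.elim0
  spec := fun _ _ => ⟨⊤, (Subalgebra.topEquiv : _ ≃ₐ[k] k).toAlgHom, fun i _ => i.elim0⟩

/-! ### The induction step -/

section Succ

variable {k F} [IsAlgClosed k] {e : ℕ} (P : GenPack k F e)

/-- `K_e ⊗[k] F` is a domain (`k` algebraically closed). -/
theorem GenPack.isDomain_tensor : IsDomain (P.KK ⊗[k] F) :=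
  TensorDomain.isDomain_tensorProduct_of_isAlgClosed k F P.KK

attribute [local instance] GenPack.isDomain_tensor

/-- the next field `Frac (K_e ⊗[k] F)`. -/
def GenPack.succKK : Type u := FractionRing (P.KK ⊗[k] F)

instance GenPack.succKK_field : Field P.succKK :=
  inferInstanceAs (Field (FractionRing (P.KK ⊗[k] F)))

instance GenPack.succKK_algebra : Algebra k P.succKK :=
  inferInstanceAs (Algebra k (FractionRing (P.KK ⊗[k] F)))

/-- the canonical map `K_e ⊗[k] F → Frac`. -/
def GenPack.toSucc : (P.KK ⊗[k] F) →ₐ[k] P.succKK :=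
  IsScalarTower.toAlgHom k (P.KK ⊗[k] F) (FractionRing (P.KK ⊗[k] F))

theorem GenPack.toSucc_injective : Function.Injective P.toSucc :=
  IsFractionRing.injective (P.KK ⊗[k] F) (FractionRing (P.KK ⊗[k] F))

/-- the `e + 1` embeddings: the old ones through the left factor, the new one through the right
factor. -/
def GenPack.succGen : Fin (e + 1) → F →ₐ[k] P.succKK :=
  Fin.lastCases (P.toSucc.comp Algebra.TensorProduct.includeRight)
    (fun i => P.toSucc.comp (Algebra.TensorProduct.includeLeft.comp (P.gen i)))

theorem GenPack.succGen_last (f : F) :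
    P.succGen (Fin.last e) f = P.toSucc ((1 : P.KK) ⊗ₜ[k] f) := by
  simp [GenPack.succGen]

theorem GenPack.succGen_castSucc (i : Fin e) (f : F) :
    P.succGen i.castSucc f = P.toSucc (P.gen i f ⊗ₜ[k] (1 : F)) := by
  simp [GenPack.succGen]

theorem GenPack.succ_spec (R : Fin (e + 1) → Subalgebra k F) (φ : ∀ i, R i →ₐ[k] k) :
    ∃ (B : Subalgebra k P.succKK) (Φ : B →ₐ[k] k), ∀ (i : Fin (e + 1)) (f : R i),
      ∃ h : P.succGen i (f : F) ∈ B, Φ ⟨P.succGen i (f : F), h⟩ = φ i f := by
  obtain ⟨B₀, Φ₀, h₀⟩ := P.spec (fun i => R i.castSucc) (fun i => φ i.castSucc)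
  let μ : B₀ ⊗[k] R (Fin.last e) →ₐ[k] P.succKK :=
    P.toSucc.comp (Algebra.TensorProduct.map B₀.val (R (Fin.last e)).val)
  have hμ : Function.Injective μ := by
    refine P.toSucc_injective.comp ?_
    exact TensorProduct.map_injective_of_flat_flat (R := k) B₀.val.toLinearMap
      (R (Fin.last e)).val.toLinearMap Subtype.val_injective Subtype.val_injective
  let E : B₀ ⊗[k] R (Fin.last e) ≃ₐ[k] μ.range := AlgEquiv.ofInjective μ hμ
  let Ψ : B₀ ⊗[k] R (Fin.last e) →ₐ[k] k :=
    Algebra.TensorProduct.productMap Φ₀ (φ (Fin.last e))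
  have key : ∀ (x : P.succKK) (t : B₀ ⊗[k] R (Fin.last e)) (hx : x = μ t),
      ∃ h : x ∈ μ.range, (Ψ.comp E.symm.toAlgHom) ⟨x, h⟩ = Ψ t := by
    rintro x t rfl
    refine ⟨AlgHom.mem_range_self μ t, ?_⟩
    have : (⟨μ t, AlgHom.mem_range_self μ t⟩ : μ.range) = E t := rfl
    rw [this]
    simp
  refine ⟨μ.range, Ψ.comp E.symm.toAlgHom, fun i f => ?_⟩
  induction i using Fin.lastCases with
  | last =>
    obtain ⟨h, hh⟩ := key (P.succGen (Fin.last e) (f : F)) ((1 : B₀) ⊗ₜ[k] f)
      (by rw [P.succGen_last]; simp [μ])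
    exact ⟨h, by rw [hh]; simp [Ψ]⟩
  | cast i =>
    obtain ⟨h₁, h₂⟩ := h₀ i f
    obtain ⟨h, hh⟩ := key (P.succGen i.castSucc (f : F))
      ((⟨P.gen i (f : F), h₁⟩ : B₀) ⊗ₜ[k] (1 : R (Fin.last e)))
      (by rw [P.succGen_castSucc]; simp [μ])
    exact ⟨h, by rw [hh]; simp [Ψ, h₂]⟩

/-- the induction step. -/
def GenPack.succ : GenPack k F (e + 1) where
  KK := P.succKK
  instField := inferInstance
  instAlg := inferInstance
  gen := P.succGen
  spec := P.succ_spec

end Succ

/-! ### The generic `e`-point field -/

section Main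

variable [IsAlgClosed k]

/-- the packages, by induction on the number of points. -/
def pack : (e : ℕ) → GenPack k F e
  | 0 => GenPack.zero k F
  | e + 1 => (pack e).succ

/-- **the generic `e`-point field** of `F / k`. -/
def KK (e : ℕ) : Type u := (pack k F e).KK

instance KK.instField (e : ℕ) : Field (KK k F e) := (pack k F e).instField

instance KK.instAlgebra (e : ℕ) : Algebra k (KK k F e) := (pack k F e).instAlg

instance KK.instCharZero [CharZero k] (e : ℕ) : CharZero (KK k F e) :=
  charZero_of_injective_algebraMap (algebraMap k (KK k F e)).injective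

variable {e : ℕ}

/-- the `i`-th generic point. -/
def gen (i : Fin e) : F →ₐ[k] KK k F e := (pack k F e).gen i

theorem gen_injective (i : Fin e) : Function.Injective (gen k F i) :=
  (gen k F i).toRingHom.injective

/-- **Simultaneous specialisation.**  For any subalgebras `R i ⊆ F` with `k`-points `φ i` there is a
`k`-point `Φ` of a subalgebra of `KK k F e` containing every `gen i (R i)`, inducing `φ i` on the
`i`-th factor. -/
theorem exists_specialisation (R : Fin e → Subalgebra k F) (φ : ∀ i, R i →ₐ[k] k) :
    ∃ (B : Subalgebra k (KK k F e)) (Φ : B →ₐ[k] k), ∀ (i : Fin e) (f : R i),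
      ∃ h : gen k F i (f : F) ∈ B, Φ ⟨gen k F i (f : F), h⟩ = φ i f :=
  (pack k F e).spec R φ

variable {k F}

/-- an element of `F` outside `k` is transcendental (`k` algebraically closed). -/
theorem transcendental_of_not_mem_range {f : F} (hf : f ∉ Set.range (algebraMap k F)) :
    Transcendental k f := by
  intro halg
  apply hf
  have hint : IsIntegral k f := halg.isIntegral
  exact minpoly.mem_range_of_degree_eq_one k f
    (IsAlgClosed.degree_eq_one_of_irreducible k (minpoly.irreducible hint))

/-- **(G-b)** two different generic points agree only on constants. -/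
theorem gen_eq_gen {i j : Fin e} {f : F} (h : gen k F i f = gen k F j f) :
    i = j ∨ f ∈ Set.range (algebraMap k F) := by
  by_contra hcon
  obtain ⟨hij, hf⟩ := not_or.1 hcon
  have htr : Transcendental k f := transcendental_of_not_mem_range hf
  have hinj : Function.Injective (Polynomial.aeval (R := k) f) :=
    transcendental_iff_injective.1 htr
  let E : Polynomial k ≃ₐ[k] (Polynomial.aeval (R := k) f).range :=
    AlgEquiv.ofInjective (Polynomial.aeval (R := k) f) hinj
  let ev : k → ((Polynomial.aeval (R := k) f).range →ₐ[k] k) := fun c =>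
    (Polynomial.aeval (R := k) c).comp E.symm.toAlgHom
  have hfmem : f ∈ (Polynomial.aeval (R := k) f).range := ⟨Polynomial.X, by simp⟩
  have hev : ∀ c : k, ev c ⟨f, hfmem⟩ = c := by
    intro c
    have : (⟨f, hfmem⟩ : (Polynomial.aeval (R := k) f).range) = E Polynomial.X :=
      Subtype.ext (by simp [E])
    simp [ev, this]
  obtain ⟨B, Φ, hΦ⟩ := exists_specialisation k F
    (fun _ : Fin e => (Polynomial.aeval (R := k) f).range)
    (fun m => ev (if m = i then 0 else 1))
  obtain ⟨hi, hi'⟩ := hΦ i ⟨f, hfmem⟩
  obtain ⟨hj, hj'⟩ := hΦ j ⟨f, hfmem⟩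
  rw [hev] at hi' hj'
  rw [if_pos rfl] at hi'
  rw [if_neg (Ne.symm hij)] at hj'
  have : (⟨gen k F i f, hi⟩ : B) = ⟨gen k F j f, hj⟩ := Subtype.ext h
  rw [this, hj'] at hi'
  exact one_ne_zero hi'

/-- **(G-d)** specialisation of polynomial identities: if the `f j` have the values `v (i, j) ∈ k`
at valuation rings `P i ⊇ k` of `F`, every polynomial relation over `k` between the generic points
`gen i (f j)` holds for the values. -/
theorem aeval_gen_eq_zero (P : Fin e → ValuationSubring F)
    (hP : ∀ i (c : k), algebraMap k F c ∈ P i) {J : Type*} (f : J → F) (v : Fin e × J → k)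
    (hv : ∀ i j, HasValue (P i) (f j) (v (i, j))) (G : MvPolynomial (Fin e × J) k)
    (hG : MvPolynomial.aeval (fun ij : Fin e × J => gen k F ij.1 (f ij.2)) G = 0) :
    MvPolynomial.aeval v G = 0 := by
  obtain ⟨B, Φ, hΦ⟩ := exists_specialisation k F (fun i => ratSub (P i) (hP i))
    (fun i => ratVal (P i) (hP i))
  have hmem : ∀ ij : Fin e × J, gen k F ij.1 (f ij.2) ∈ B := fun ij =>
    (hΦ ij.1 ⟨f ij.2, v (ij.1, ij.2), hv ij.1 ij.2⟩).1
  have hval : ∀ ij : Fin e × J, Φ ⟨gen k F ij.1 (f ij.2), hmem ij⟩ = v ij := fun ij => by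
    obtain ⟨h1, h2⟩ := hΦ ij.1 ⟨f ij.2, v (ij.1, ij.2), hv ij.1 ij.2⟩
    rw [h2]
    exact ratVal_eq (P ij.1) (hP ij.1) (hv ij.1 ij.2)
  let x : Fin e × J → B := fun ij => ⟨gen k F ij.1 (f ij.2), hmem ij⟩
  have h0 : MvPolynomial.aeval x G = 0 := by
    apply Subtype.val_injective
    have := MvPolynomial.comp_aeval_apply (R := k) (f := x) B.val G
    simp only [Subalgebra.coe_val] at this
    rw [this]
    exact hG
  have := MvPolynomial.comp_aeval_apply (R := k) (f := x) Φ G
  rw [h0, map_zero] at this
  have hx : (fun ij => Φ (x ij)) = v := funext hval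
  rw [hx] at this
  exact this.symm

/-- **(G-c), abstract half** for the generic points: a `k`-rational valuation ring of `KK k F e` has
a nontrivial centre on every factor. -/
theorem comap_gen_ne_top (O : ValuationSubring (KK k F e))
    (hrat : ∀ a ∈ O, ∃ c : k, HasValue O a c)
    (hF : ¬ Function.Surjective (algebraMap k F)) (i : Fin e) :
    O.comap (gen k F i : F →+* KK k F e) ≠ ⊤ :=
  comap_ne_top_of_rational O (gen k F i) hrat hF

/-- **(G-d)** with coefficients in a smaller ring `A → k` (e.g. `A = ℚ`). -/
theorem aeval_gen_eq_zero_of_tower {A : Type*} [CommSemiring A] [Algebra A k]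
    [Algebra A (KK k F e)] [IsScalarTower A k (KK k F e)] (P : Fin e → ValuationSubring F)
    (hP : ∀ i (c : k), algebraMap k F c ∈ P i) {J : Type*} (f : J → F) (v : Fin e × J → k)
    (hv : ∀ i j, HasValue (P i) (f j) (v (i, j))) (G : MvPolynomial (Fin e × J) A)
    (hG : MvPolynomial.aeval (fun ij : Fin e × J => gen k F ij.1 (f ij.2)) G = 0) :
    MvPolynomial.aeval v G = 0 := by
  have h := aeval_gen_eq_zero P hP f v hv (MvPolynomial.map (algebraMap A k) G)
    (by rw [MvPolynomial.aeval_map_algebraMap]; exact hG)
  rwa [MvPolynomial.aeval_map_algebraMap] at h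

end Main

end Fermat.Agent.GR.H.Gen
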