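/-
GATE-R (S17) / heights, node GR-H-GEN (helper41): the generic `e`-point field of `X₀(N)` over `ℚ̄`
in the consumer shapes of `helper3` (board 4795 (2)):

* `KKBar N e`, `genBar N i` (G-a);
* `genBar_eq_genBar` (G-b);
* `exists_place_genBar` (G-c): the centre of a `ℚ̄`-rational valuation ring of `KKBar N e` on the
  `i`-th factor is a PLACE of `modularFunctionFieldBar N` (and values correspond);
* `valBar N P f` (the value `f(P) ∈ ℚ̄`, `0` if `f` has a pole) and `aeval_genBar_eq_zero` (G-d):
  ℚ-polynomial identities between generic points specialise to the values at ANY places.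

The first part is generic in a function field `F / k` with a generator (`S24.IsGen`).
-/
import Mathlib
import Fermat.Agent.GR.H.Gen.Core
import Fermat.Agent.RR.ModularBar
import Fermat.Agent.GJ.FF.ValRing

set_option autoImplicit false

noncomputable section

open AlgebraicCurve ModularCurve

namespace Fermat.Agent.GR.H.Gen

universe u

/-! ### Function fields with a generator -/

section FF

variable {k F : Type u} [Field k] [Field F] [Algebra k F]

theorem not_surjective_algebraMap_of_isGen (x : F) [hx : Fermat.Agent.S24.IsGen k x] :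
    ¬ Function.Surjective (algebraMap k F) := by
  intro hs
  obtain ⟨c, hc⟩ := hs x
  exact hx.transcendental (hc ▸ isAlgebraic_algebraMap c)

/-- **(G-c)** the centre on the `i`-th factor of a `k`-rational valuation ring of the generic
`e`-point field is a place of `F`, and values correspond. -/
theorem exists_place_gen [IsAlgClosed k] (x : F) [Fermat.Agent.S24.IsGen k x] {e : ℕ}
    (O : ValuationSubring (KK k F e)) (hk : ∀ c : k, algebraMap k (KK k F e) c ∈ O)
    (hrat : ∀ a ∈ O, ∃ c : k, HasValue O a c) (i : Fin e) :
    ∃ P : Place k F, (∀ f : F, gen k F i f ∈ O ↔ f ∈ P.toValuationSubring) ∧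
      ∀ (f : F) (c : k), HasValue O (gen k F i f) c ↔ HasValue P.toValuationSubring f c := by
  have hne : O.comap (gen k F i : F →+* KK k F e) ≠ ⊤ :=
    comap_gen_ne_top O hrat (not_surjective_algebraMap_of_isGen x) i
  refine ⟨Fermat.Agent.GJ.FF.placeOf x (O.comap (gen k F i : F →+* KK k F e))
    (algebraMap_mem_comap O (gen k F i) hk) hne, fun f => ?_, fun f c => ?_⟩
  · rw [Fermat.Agent.GJ.FF.placeOf_toValuationSubring]
    exact ValuationSubring.mem_comap.symm
  · rw [Fermat.Agent.GJ.FF.placeOf_toValuationSubring]
    exact (hasValue_comap O (gen k F i)).symm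

/-- at a place of degree one every regular function has a value in `k`. -/
theorem exists_hasValue_of_deg_eq_one {P : Place k F} (hP : P.deg = 1) {f : F}
    (hf : f ∈ P.toValuationSubring) : ∃ c : k, HasValue P.toValuationSubring f c := by
  have h1 : Module.finrank k P.ResidueField = 1 := hP
  have h2 : (⊥ : Subalgebra k P.ResidueField) = ⊤ := Subalgebra.bot_eq_top_of_finrank_eq_one h1
  have hx : IsLocalRing.residue P.toValuationSubring ⟨f, hf⟩ ∈
      (⊥ : Subalgebra k P.ResidueField) := by
    rw [h2]; exact Algebra.mem_top
  obtain ⟨a, ha⟩ := Algebra.mem_bot.mp hx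
  refine ⟨a, ?_⟩
  unfold HasValue
  have hmem : f - algebraMap k F a ∈ P.toValuationSubring := sub_mem hf (P.algebraMap_mem' a)
  have : ((⟨f - algebraMap k F a, hmem⟩ : P.toValuationSubring) : F) ∈
      P.toValuationSubring.nonunits := by
    rw [ValuationSubring.coe_mem_nonunits_iff, ← Ideal.Quotient.eq_zero_iff_mem]
    have h3 : (⟨f - algebraMap k F a, hmem⟩ : P.toValuationSubring) =
        ⟨f, hf⟩ - algebraMap k P.toValuationSubring a := rfl
    rw [h3, map_sub]
    have h4 : (Ideal.Quotient.mk (IsLocalRing.maximalIdeal P.toValuationSubring))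
        (algebraMap k P.toValuationSubring a) = algebraMap k P.ResidueField a := rfl
    rw [h4, ha]
    exact sub_self _
  exact this

end FF

/-! ### The modular function field over `ℚ̄` -/

section Modular

variable (N : ℕ) [NeZero N]

/-- **(G-a)** the generic `e`-point field of `X₀(N)` over `ℚ̄`. -/
abbrev KKBar (e : ℕ) : Type := KK (AlgebraicClosure ℚ) (modularFunctionFieldBar N) e

/-- **(G-a)** the `i`-th generic point. -/
abbrev genBar {e : ℕ} (i : Fin e) :
    (modularFunctionFieldBar N) →ₐ[AlgebraicClosure ℚ] KKBar N e :=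
  gen (AlgebraicClosure ℚ) (modularFunctionFieldBar N) i

omit [NeZero N] in
/-- **(G-b)** two different generic points agree only on constants. -/
theorem genBar_eq_genBar {e : ℕ} {i j : Fin e} {f : modularFunctionFieldBar N}
    (h : genBar N i f = genBar N j f) :
    i = j ∨ f ∈ Set.range (algebraMap (AlgebraicClosure ℚ) (modularFunctionFieldBar N)) :=
  gen_eq_gen h

/-- **(G-c)** centres are places. -/
theorem exists_place_genBar {e : ℕ} (O : ValuationSubring (KKBar N e))
    (hk : ∀ c : AlgebraicClosure ℚ, algebraMap (AlgebraicClosure ℚ) (KKBar N e) c ∈ O)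
    (hrat : ∀ a ∈ O, ∃ c : AlgebraicClosure ℚ,
      a - algebraMap (AlgebraicClosure ℚ) (KKBar N e) c ∈ O.nonunits) (i : Fin e) :
    ∃ P : Place (AlgebraicClosure ℚ) (modularFunctionFieldBar N),
      (∀ f, genBar N i f ∈ O ↔ f ∈ P.toValuationSubring) ∧
      ∀ f (c : AlgebraicClosure ℚ),
        genBar N i f - algebraMap (AlgebraicClosure ℚ) (KKBar N e) c ∈ O.nonunits ↔
          f - algebraMap (AlgebraicClosure ℚ) (modularFunctionFieldBar N) c ∈
            P.toValuationSubring.nonunits :=
  have := Fermat.Agent.RR.ModularBar.isGen_jF N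
  exists_place_gen (Fermat.Agent.S24.jF N) O hk hrat i

open scoped Classical in
/-- the value `f(P) ∈ ℚ̄` of `f` at the place `P` (`0` if `f` has a pole at `P`). -/
def valBar (P : Place (AlgebraicClosure ℚ) (modularFunctionFieldBar N))
    (f : modularFunctionFieldBar N) : AlgebraicClosure ℚ :=
  if hf : f ∈ P.toValuationSubring then
    Classical.choose (exists_hasValue_of_deg_eq_one (Fermat.Agent.RR.ModularBar.deg_eq_one N P) hf)
  else 0

theorem valBar_spec (P : Place (AlgebraicClosure ℚ) (modularFunctionFieldBar N))
    {f : modularFunctionFieldBar N} (hf : f ∈ P.toValuationSubring) :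
    f - algebraMap (AlgebraicClosure ℚ) (modularFunctionFieldBar N) (valBar N P f) ∈
      P.toValuationSubring.nonunits := by
  unfold valBar
  rw [dif_pos hf]
  exact Classical.choose_spec
    (exists_hasValue_of_deg_eq_one (Fermat.Agent.RR.ModularBar.deg_eq_one N P) hf)

theorem valBar_eq (P : Place (AlgebraicClosure ℚ) (modularFunctionFieldBar N))
    {f : modularFunctionFieldBar N} {c : AlgebraicClosure ℚ}
    (h : f - algebraMap (AlgebraicClosure ℚ) (modularFunctionFieldBar N) c ∈
      P.toValuationSubring.nonunits) : valBar N P f = c :=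
  HasValue.unique P.algebraMap_mem'
    (valBar_spec N P (HasValue.mem (O := P.toValuationSubring) P.algebraMap_mem' h)) h

/-- **(G-d)** specialisation at ANY places (distinctness not needed): a `ℚ`-polynomial identity
between the generic points `genBar i (f j)`, the `f j` regular at every `P i`, holds for the
values `valBar (P i) (f j)`. -/
theorem aeval_genBar_eq_zero {e : ℕ}
    (P : Fin e → Place (AlgebraicClosure ℚ) (modularFunctionFieldBar N)) {J : Type*}
    (f : J → modularFunctionFieldBar N) (hreg : ∀ i j, f j ∈ (P i).toValuationSubring)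
    (G : MvPolynomial (Fin e × J) ℚ)
    (hG : MvPolynomial.aeval (fun ij : Fin e × J => genBar N ij.1 (f ij.2)) G = 0) :
    MvPolynomial.aeval (fun ij : Fin e × J => valBar N (P ij.1) (f ij.2)) G = 0 :=
  aeval_gen_eq_zero_of_tower (fun i => (P i).toValuationSubring)
    (fun i => (P i).algebraMap_mem') f (fun ij => valBar N (P ij.1) (f ij.2))
    (fun i j => valBar_spec N (P i) (hreg i j)) G hG

end Modular

end Fermat.Agent.GR.H.Gen
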