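/-
GATE-R (S17) / heights, node GR-H-GEN (helper41): bridge from the generic `e`-point field
(`Gen/Core`, `Gen/Place`) to the shared value vocabulary of `helper48` (`GR/H/PlaceVal`):
`GH.ValueAt`, `PlaceVal.valOf`.

* `hasValue_iff_valueAt`  : `Gen.HasValue P.toValuationSubring f c ↔ GH.ValueAt P f c`;
* `valBar_eq_valOf`       : `valBar N P f = PlaceVal.valOf P f` (both are `0` at a pole);
* `aeval_genBar_valOf_eq_zero` : (G-d) with `valOf`;
* `exists_place_genBar_valueAt` : (G-c) with `ValueAt`, and `valOf` of the centre computes values.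
-/
import Mathlib
import Fermat.Agent.GR.H.Gen.Place
import Fermat.Agent.GR.H.PlaceVal

set_option autoImplicit false

noncomputable section

open AlgebraicCurve ModularCurve

namespace Fermat.Agent.GR.H.Gen

open Fermat.Agent.GH Fermat.Agent.GR.H.PlaceVal

section General

variable {K F : Type*} [Field K] [Field F] [Algebra K F]

theorem hasValue_iff_valueAt (P : Place K F) (f : F) (c : K) :
    HasValue P.toValuationSubring f c ↔ ValueAt P f c :=
  hasValue_iff_valuation P.toValuationSubring

end General

section Modular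

variable (N : ℕ) [NeZero N]

theorem valueAt_valBar (P : Place (AlgebraicClosure ℚ) (modularFunctionFieldBar N))
    {f : modularFunctionFieldBar N} (hf : f ∈ P.toValuationSubring) :
    ValueAt P f (valBar N P f) :=
  (hasValue_iff_valueAt P f _).1 (valBar_spec N P hf)

/-- `valBar` is the shared `valOf`. -/
theorem valBar_eq_valOf (P : Place (AlgebraicClosure ℚ) (modularFunctionFieldBar N))
    (f : modularFunctionFieldBar N) : valBar N P f = valOf P f := by
  by_cases hf : f ∈ P.toValuationSubring
  · exact (valOf_eq_of_valueAt (valueAt_valBar N P hf)).symm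
  · rw [valOf_of_not_mem hf]
    unfold valBar
    rw [dif_neg hf]

/-- **(G-d)** with the shared `valOf`. -/
theorem aeval_genBar_valOf_eq_zero {e : ℕ}
    (P : Fin e → Place (AlgebraicClosure ℚ) (modularFunctionFieldBar N)) {J : Type*}
    (f : J → modularFunctionFieldBar N) (hreg : ∀ i j, f j ∈ (P i).toValuationSubring)
    (G : MvPolynomial (Fin e × J) ℚ)
    (hG : MvPolynomial.aeval (fun ij : Fin e × J => genBar N ij.1 (f ij.2)) G = 0) :
    MvPolynomial.aeval (fun ij : Fin e × J => valOf (P ij.1) (f ij.2)) G = 0 := by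
  have h := aeval_genBar_eq_zero N P f hreg G hG
  have hfun : (fun ij : Fin e × J => valBar N (P ij.1) (f ij.2)) =
      fun ij : Fin e × J => valOf (P ij.1) (f ij.2) :=
    funext fun ij => valBar_eq_valOf N (P ij.1) (f ij.2)
  rwa [hfun] at h

/-- **(G-c)** with `ValueAt` / `valOf`: the centre `P` of a `ℚ̄`-rational valuation ring `O` on the
`i`-th factor is a place, `genBar i f ∈ O ↔ f` regular at `P`, and the value of `genBar i f` at `O`
is `valOf P f`. -/
theorem exists_place_genBar_valueAt {e : ℕ} (O : ValuationSubring (KKBar N e))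
    (hk : ∀ c : AlgebraicClosure ℚ, algebraMap (AlgebraicClosure ℚ) (KKBar N e) c ∈ O)
    (hrat : ∀ a ∈ O, ∃ c : AlgebraicClosure ℚ,
      a - algebraMap (AlgebraicClosure ℚ) (KKBar N e) c ∈ O.nonunits) (i : Fin e) :
    ∃ P : Place (AlgebraicClosure ℚ) (modularFunctionFieldBar N),
      (∀ f, genBar N i f ∈ O ↔ f ∈ P.toValuationSubring) ∧
      (∀ f (c : AlgebraicClosure ℚ),
        genBar N i f - algebraMap (AlgebraicClosure ℚ) (KKBar N e) c ∈ O.nonunits ↔
          ValueAt P f c) ∧
      ∀ f, f ∈ P.toValuationSubring →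
        genBar N i f - algebraMap (AlgebraicClosure ℚ) (KKBar N e) (valOf P f) ∈ O.nonunits := by
  obtain ⟨P, h1, h2⟩ := exists_place_genBar N O hk hrat i
  refine ⟨P, h1, fun f c => (h2 f c).trans (hasValue_iff_valueAt P f c), fun f hf => ?_⟩
  rw [h2, ← valBar_eq_valOf N P f]
  exact valBar_spec N P hf

end Modular

end Fermat.Agent.GR.H.Gen
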