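/-
GATE-R (S17) / heights, node GR-H-GEN (helper41): the specialisation homomorphism at a family of
places, in the shape consumed by `Star/Rat.isSpec_of_algHom_ext` (helper3).

* `exists_specialisation_hasValue` (abstract): for valuation rings `P i ⊇ k` of `F` there are a
  subalgebra `B ⊆ KK k F e` and `φ : B →ₐ[k] k` such that every `gen i f` with `f` having a value
  `c ∈ k` at `P i` lies in `B` and `φ (gen i f) = c`;
* `exists_specialisation_places` : for places `P i` of `ℚ̄(X₀(N))`: `φ (genBar i f) = valOf (P i) f`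
  for ALL `f` regular at `P i`, simultaneously in `i`;
* `exists_specialisation_places_rat` : the same with `B : Subalgebra ℚ _`, `φ : B →ₐ[ℚ] ℚ̄`.
-/
import Mathlib
import Fermat.Agent.GR.H.Gen.ValOf

set_option autoImplicit false

noncomputable section

open AlgebraicCurve ModularCurve

namespace Fermat.Agent.GR.H.Gen

open Fermat.Agent.GH Fermat.Agent.GR.H.PlaceVal

universe u

section Abstract

variable {k F : Type u} [Field k] [Field F] [Algebra k F] [IsAlgClosed k]

/-- the specialisation homomorphism at a family of valuation rings of `F` containing `k`. -/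
theorem exists_specialisation_hasValue {e : ℕ} (P : Fin e → ValuationSubring F)
    (hP : ∀ i (c : k), algebraMap k F c ∈ P i) :
    ∃ (B : Subalgebra k (KK k F e)) (φ : B →ₐ[k] k), ∀ (i : Fin e) (f : F) (c : k),
      HasValue (P i) f c → ∃ h : gen k F i f ∈ B, φ ⟨gen k F i f, h⟩ = c := by
  obtain ⟨B, Φ, hΦ⟩ := exists_specialisation k F (fun i => ratSub (P i) (hP i))
    (fun i => ratVal (P i) (hP i))
  refine ⟨B, Φ, fun i f c hc => ?_⟩
  obtain ⟨h1, h2⟩ := hΦ i ⟨f, c, hc⟩
  exact ⟨h1, h2.trans (ratVal_eq (P i) (hP i) hc)⟩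

end Abstract

section Modular

variable (N : ℕ) [NeZero N]

/-- **specialisation at places**: ONE `ℚ̄`-algebra homomorphism `φ` on a subalgebra of the generic
`e`-point field with `φ (genBar i f) = f(P i)` for all `i` and all `f` regular at `P i`. -/
theorem exists_specialisation_places {e : ℕ}
    (P : Fin e → Place (AlgebraicClosure ℚ) (modularFunctionFieldBar N)) :
    ∃ (B : Subalgebra (AlgebraicClosure ℚ) (KKBar N e)) (φ : B →ₐ[AlgebraicClosure ℚ]
      AlgebraicClosure ℚ), ∀ (i : Fin e) (f : modularFunctionFieldBar N),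
        f ∈ (P i).toValuationSubring →
          ∃ h : genBar N i f ∈ B, φ ⟨genBar N i f, h⟩ = valOf (P i) f := by
  obtain ⟨B, φ, hφ⟩ := exists_specialisation_hasValue
    (k := AlgebraicClosure ℚ) (F := modularFunctionFieldBar N)
    (fun i => (P i).toValuationSubring) (fun i => (P i).algebraMap_mem')
  refine ⟨B, φ, fun i f hf => ?_⟩
  have := hφ i f (valBar N (P i) f) (valBar_spec N (P i) hf)
  rwa [valBar_eq_valOf] at this

/-- the same over `ℚ` (shape of `Star/Rat.isSpec_of_algHom_ext`, `k = ℚ`, `kb = ℚ̄`). -/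
theorem exists_specialisation_places_rat {e : ℕ}
    (P : Fin e → Place (AlgebraicClosure ℚ) (modularFunctionFieldBar N)) :
    ∃ (B : Subalgebra ℚ (KKBar N e)) (φ : B →ₐ[ℚ] AlgebraicClosure ℚ),
      (∀ c : AlgebraicClosure ℚ, ∃ h : algebraMap (AlgebraicClosure ℚ) (KKBar N e) c ∈ B,
        φ ⟨_, h⟩ = c) ∧
      ∀ (i : Fin e) (f : modularFunctionFieldBar N), f ∈ (P i).toValuationSubring →
        ∃ h : genBar N i f ∈ B, φ ⟨genBar N i f, h⟩ = valOf (P i) f := by
  obtain ⟨B, φ, hφ⟩ := exists_specialisation_places N P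
  refine ⟨B.restrictScalars ℚ, φ.restrictScalars ℚ, fun c => ?_, fun i f hf => ?_⟩
  · refine ⟨B.algebraMap_mem c, ?_⟩
    have : (⟨algebraMap (AlgebraicClosure ℚ) (KKBar N e) c, B.algebraMap_mem c⟩ : B) =
        algebraMap (AlgebraicClosure ℚ) B c := rfl
    show φ ⟨algebraMap (AlgebraicClosure ℚ) (KKBar N e) c, B.algebraMap_mem c⟩ = c
    rw [this, AlgHom.commutes]
    rfl
  · obtain ⟨h, hh⟩ := hφ i f hf
    exact ⟨h, hh⟩

end Modular

end Fermat.Agent.GR.H.Gen
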